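/-
S52 library (helper4), block Cong: **isomorphic `p`-torsion ⇒ congruent `a_ℓ`.**

If `W[p] ≅ W'[p]` as `G_ℚ`-modules then `a_ℓ(W) ≡ a_ℓ(W') mod p` at every common good prime `ℓ ≠ p`:
the trace of a Frobenius element on the `p`-adic Tate module is `a_ℓ` (Block 1 of S58:
`Tate.tateFrob_of_frobCore Fermat.Agent.S58lib.Cnt.frobCore`), its reduction mod `p` is the trace of Frobenius on the
`p`-torsion (helper6's level matrices), and an equivariant isomorphism conjugates the two level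
matrices.
-/
import Fermat.Agent.S58lib.Tate.Transport
import Fermat.Agent.S58lib.Cnt.FrobCore
import Fermat.Agent.Helper5.FrobExists

set_option autoImplicit false
set_option linter.style.haveILetI false
set_option linter.unusedSectionVars false

noncomputable section

namespace Fermat.Agent.S52lib.Cong

open WeierstrassCurve Polynomial Matrix
open Fermat.Agent.S58lib.Tate

/-! ### the trace of Frobenius on the torsion -/

/-- comparing the linear coefficients of two monic quadratics. -/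
theorem quad_coeff_one_eq' {R : Type*} [CommRing R] {a b c d : R}
    (h : (X : R[X]) ^ 2 - C a * X + C b = X ^ 2 - C c * X + C d) : a = c := by
  have h1 := congrArg (fun P : R[X] => P.coeff 1) h
  simp only [coeff_add, coeff_sub, coeff_X_pow, coeff_C_mul, coeff_X_one, coeff_C] at h1
  simpa using h1

variable (W : WeierstrassCurve ℤ) (hΔ : W.Δ ≠ 0) (p : ℕ) [hp : Fact p.Prime]

/-- **Block 1, trace form**: the trace of a Frobenius element at a good prime `ℓ ≠ p` on the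
`p`-adic Tate module is `a_ℓ`. -/
theorem trace_tateMatZp_frob {ℓ : ℕ} (hℓ : ℓ.Prime) (hℓp : ℓ ≠ p) (hgood : ¬ (ℓ : ℤ) ∣ W.Δ)
    {A : ValuationSubring Qb} (hA : A.LiesOverPrime ℓ) {σ : GQ} (hσ : A.IsFrobeniusAt σ ℓ) :
    (tateMatZp (WQ' W) p (WQ'_Δ_ne_zero hΔ) σ).trace = ((W.apOfModel ℓ : ℤ) : ℤ_[p]) := by
  have h := tateFrob_of_frobCore Fermat.Agent.S58lib.Cnt.frobCore W hΔ p ℓ hℓ hℓp hgood A hA σ hσ
  have h' : LinearMap.charpoly ((tateRep (WQ' W) p (natCast_mem_maximalIdeal_padicInt p)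
      (WQ'_Δ_ne_zero hΔ)).ρ σ) =
      X ^ 2 - C ((W.apOfModel ℓ : ℤ) : ℤ_[p]) * X + C ((ℓ : ℕ) : ℤ_[p]) := h
  rw [tateRep_charpoly, Matrix.charpoly_fin_two] at h'
  exact quad_coeff_one_eq' h'

/-- the trace of a Frobenius element on the level-`k` matrices is `a_ℓ mod p^k`. -/
theorem trace_levelMat_frob (k : ℕ) {ℓ : ℕ} (hℓ : ℓ.Prime) (hℓp : ℓ ≠ p)
    (hgood : ¬ (ℓ : ℤ) ∣ W.Δ)
    {A : ValuationSubring Qb} (hA : A.LiesOverPrime ℓ) {σ : GQ} (hσ : A.IsFrobeniusAt σ ℓ) :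
    (levelMat (WQ' W) p (WQ'_Δ_ne_zero hΔ) k σ).trace = ((W.apOfModel ℓ : ℤ) : ZMod (p ^ k)) := by
  rw [← tateMatZp_map_toZModPow, Matrix.trace_fin_two, Matrix.map_apply, Matrix.map_apply,
    ← map_add, ← Matrix.trace_fin_two, trace_tateMatZp_frob W hΔ p hℓ hℓp hgood hA hσ,
    map_intCast]

/-! ### conjugate matrices have the same trace -/

omit W hΔ hp in
/-- two matrices over `ZMod n` intertwined by an additive automorphism have the same trace. -/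
theorem trace_eq_of_intertwine {n : ℕ} (M M' : Matrix (Fin 2) (Fin 2) (ZMod n))
    (Θ : (Fin 2 → ZMod n) ≃+ (Fin 2 → ZMod n))
    (h : ∀ v, Θ (M *ᵥ v) = M' *ᵥ Θ v) : M.trace = M'.trace := by
  set f : (Fin 2 → ZMod n) →ₗ[ZMod n] (Fin 2 → ZMod n) :=
    (Θ : (Fin 2 → ZMod n) →+ (Fin 2 → ZMod n)).toZModLinearMap n with hf
  set g : (Fin 2 → ZMod n) →ₗ[ZMod n] (Fin 2 → ZMod n) :=
    (Θ.symm : (Fin 2 → ZMod n) →+ (Fin 2 → ZMod n)).toZModLinearMap n with hg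
  have hfv : ∀ v, f v = Θ v := fun v => rfl
  have hgv : ∀ v, g v = Θ.symm v := fun v => rfl
  set Cm := LinearMap.toMatrix' f with hC
  set Dm := LinearMap.toMatrix' g with hD
  have hCv : ∀ v, Cm *ᵥ v = Θ v := fun v => by rw [hC, LinearMap.toMatrix'_mulVec, hfv]
  have hDv : ∀ v, Dm *ᵥ v = Θ.symm v := fun v => by rw [hD, LinearMap.toMatrix'_mulVec, hgv]
  have h1 : Cm * M = M' * Cm := by
    apply Matrix.toLin'.injective
    refine LinearMap.ext fun v => ?_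
    rw [Matrix.toLin'_apply, Matrix.toLin'_apply, ← Matrix.mulVec_mulVec, ← Matrix.mulVec_mulVec,
      hCv, hCv, h]
  have h2 : Dm * Cm = 1 := by
    apply Matrix.toLin'.injective
    refine LinearMap.ext fun v => ?_
    rw [Matrix.toLin'_apply, ← Matrix.mulVec_mulVec, hCv, hDv, AddEquiv.symm_apply_apply,
      Matrix.toLin'_one, LinearMap.id_apply]
  have h3 : Cm * Dm = 1 := by
    apply Matrix.toLin'.injective
    refine LinearMap.ext fun v => ?_
    rw [Matrix.toLin'_apply, ← Matrix.mulVec_mulVec, hDv, hCv, AddEquiv.apply_symm_apply,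
      Matrix.toLin'_one, LinearMap.id_apply]
  calc M.trace = (Dm * Cm * M).trace := by rw [h2, one_mul]
    _ = (Dm * (M' * Cm)).trace := by rw [mul_assoc, h1]
    _ = (M' * Cm * Dm).trace := by rw [Matrix.trace_mul_comm]
    _ = M'.trace := by rw [mul_assoc, h3, mul_one]

/-! ### the congruence -/

omit W hΔ in
/-- **Isomorphic `p^k`-torsion ⇒ `a_ℓ` congruent mod `p^k`** (submodule form, helper6's `tors`). -/
theorem apOfModel_sub_dvd_of_tors_iso (W W' : WeierstrassCurve ℤ) (hΔ : W.Δ ≠ 0)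
    (hΔ' : W'.Δ ≠ 0) (k : ℕ)
    (θ : tors (Pts (WQ' W)) p k ≃+ tors (Pts (WQ' W')) p k)
    (hθ : ∀ (σ : GQ) (x : tors (Pts (WQ' W)) p k), θ (σ • x) = σ • θ x)
    {ℓ : ℕ} (hℓ : ℓ.Prime) (hℓp : ℓ ≠ p) (hg : ¬ (ℓ : ℤ) ∣ W.Δ) (hg' : ¬ (ℓ : ℤ) ∣ W'.Δ) :
    ((p ^ k : ℕ) : ℤ) ∣ W'.apOfModel ℓ - W.apOfModel ℓ := by
  obtain ⟨A, σ, hA, hσ⟩ := Fermat.Agent.Helper5.exists_isFrobeniusAt ℓ hℓ
  set M := levelMat (WQ' W) p (WQ'_Δ_ne_zero hΔ) k σ with hM
  set M' := levelMat (WQ' W') p (WQ'_Δ_ne_zero hΔ') k σ with hM'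
  set e := levelEquiv (WQ' W) p (WQ'_Δ_ne_zero hΔ) k with he
  set e' := levelEquiv (WQ' W') p (WQ'_Δ_ne_zero hΔ') k with he'
  set Θ : (Fin 2 → ZMod (p ^ k)) ≃+ (Fin 2 → ZMod (p ^ k)) := e.symm.trans (θ.trans e') with hΘ
  have hΘe : ∀ x, Θ (e x) = e' (θ x) := fun x => by
    rw [hΘ, AddEquiv.trans_apply, AddEquiv.trans_apply, AddEquiv.symm_apply_apply]
  have h : ∀ v, Θ (M *ᵥ v) = M' *ᵥ Θ v := by
    intro v
    obtain ⟨x, rfl⟩ := e.surjective v
    rw [hM, he, levelMat_mulVec, ← he, hΘe, hΘe]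
    have h1 : actHom (WQ' W) p k σ x = σ • x := rfl
    rw [h1, hθ σ x, hM', he', levelMat_mulVec]
    rfl
  have htr := trace_eq_of_intertwine M M' Θ h
  rw [hM, hM', trace_levelMat_frob W hΔ p k hℓ hℓp hg hA hσ,
    trace_levelMat_frob W' hΔ' p k hℓ hℓp hg' hA hσ] at htr
  exact (ZMod.intCast_eq_intCast_iff_dvd_sub _ _ _).mp htr

omit W hΔ in
/-- **Isomorphic `p`-torsion ⇒ `a_ℓ` congruent mod `p`** (point-map form: `θ` need only be defined,
additive, injective and equivariant on the `p`-torsion points). -/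
theorem apOfModel_sub_dvd_of_pointMap (W W' : WeierstrassCurve ℤ) (hΔ : W.Δ ≠ 0)
    (hΔ' : W'.Δ ≠ 0) (θ : Pts (WQ' W) → Pts (WQ' W'))
    (hadd : ∀ x y, p • x = 0 → p • y = 0 → θ (x + y) = θ x + θ y)
    (htors : ∀ x, p • x = 0 → p • θ x = 0)
    (hinj : ∀ x, p • x = 0 → θ x = 0 → x = 0)
    (heq : ∀ (σ : GQ) x, p • x = 0 → θ (σ • x) = σ • θ x)
    {ℓ : ℕ} (hℓ : ℓ.Prime) (hℓp : ℓ ≠ p) (hg : ¬ (ℓ : ℤ) ∣ W.Δ) (hg' : ¬ (ℓ : ℤ) ∣ W'.Δ) :
    (p : ℤ) ∣ W'.apOfModel ℓ - W.apOfModel ℓ := by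
  have hm : ∀ {A : Type} [AddCommGroup A] (x : A), x ∈ tors A p 1 ↔ p • x = 0 := fun x => by
    rw [mem_tors, pow_one]
  have hz : θ 0 = 0 := by
    have h0 := hadd 0 0 (nsmul_zero p) (nsmul_zero p)
    rw [add_zero] at h0
    exact left_eq_add.mp h0
  -- the additive map on the torsion
  let f : tors (Pts (WQ' W)) p 1 →+ tors (Pts (WQ' W')) p 1 :=
    { toFun := fun x => ⟨θ x, (hm _).mpr (htors x ((hm _).mp x.2))⟩
      map_zero' := Subtype.ext hz
      map_add' := fun x y => Subtype.ext (hadd x y ((hm _).mp x.2) ((hm _).mp y.2)) }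
  have hfinj : Function.Injective f := by
    rw [injective_iff_map_eq_zero]
    intro x hx
    exact Subtype.ext (hinj x ((hm _).mp x.2) (congrArg Subtype.val hx))
  haveI : Finite (tors (Pts (WQ' W)) p 1) :=
    (hasTwoDimTorsion (WQ' W) (WQ'_Δ_ne_zero hΔ) p).finite 1
  haveI : Finite (tors (Pts (WQ' W')) p 1) :=
    (hasTwoDimTorsion (WQ' W') (WQ'_Δ_ne_zero hΔ') p).finite 1
  have hcard : Nat.card (tors (Pts (WQ' W)) p 1) = Nat.card (tors (Pts (WQ' W')) p 1) := by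
    rw [hasTwoDimTorsion (WQ' W) (WQ'_Δ_ne_zero hΔ) p 1,
      hasTwoDimTorsion (WQ' W') (WQ'_Δ_ne_zero hΔ') p 1]
  have hfbij : Function.Bijective f :=
    (Nat.bijective_iff_injective_and_card f).mpr ⟨hfinj, hcard⟩
  let θ' : tors (Pts (WQ' W)) p 1 ≃+ tors (Pts (WQ' W')) p 1 := AddEquiv.ofBijective f hfbij
  have h := apOfModel_sub_dvd_of_tors_iso p W W' hΔ hΔ' 1 θ'
    (fun σ x => Subtype.ext (heq σ x ((hm _).mp x.2))) hℓ hℓp hg hg'
  rwa [pow_one] at h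

end Fermat.Agent.S52lib.Cong
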